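import Fermat.Agent.S24.Ana.Base.EvGen

/-!
# S24 / B1 / Base: the `t`-expansion of `z ↦ j((a z + b)/δ)` has coefficients in `ℚ̄`
-/

set_option autoImplicit false

noncomputable section

namespace Fermat.Agent.S24

open AlgebraicCurve ModularCurve IntermediateField UpperHalfPlane
open scoped MatrixGroups

/-- `e^{2πi/n}` is in the image of `φ : ℚ̄ → ℂ`. -/
theorem exists_root_of_unity (n : ℕ) [NeZero n] :
    ∃ ζ : Qb, φ ζ = Complex.exp (2 * Real.pi * Complex.I / n) := by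
  have : NeZero ((n : ℕ) : ℚ) := ⟨Nat.cast_ne_zero.mpr (NeZero.ne n)⟩
  obtain ⟨ζ₀, hζ₀⟩ := HasEnoughRootsOfUnity.exists_primitiveRoot Qb n
  have h1 : IsPrimitiveRoot (φ ζ₀) n := hζ₀.map_of_injective φ.injective
  have h2 : Complex.exp (2 * Real.pi * Complex.I / n) ^ n = 1 :=
    (Complex.isPrimitiveRoot_exp n (NeZero.ne n)).pow_eq_one
  obtain ⟨i, -, hi⟩ := h1.eq_pow_of_pow_eq_one h2
  exact ⟨ζ₀ ^ i, by rw [map_pow, hi]⟩

/-- `q((a z + b)/δ) = e^{2πi b/δ} · t^{aN/δ}` where `t = e^{2πiz/N}`. -/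
theorem qOf_affine (N : ℕ) [NeZero N] (a b δ : ℤ) (hδ : 0 < δ) (hδN : δ ∣ (N : ℤ))
    (w z : ℍ) (hw : (w : ℂ) = ((a : ℂ) * z + b) / δ) :
    qOf w = Complex.exp (2 * Real.pi * Complex.I / (δ.toNat : ℂ)) ^ b *
      tOf N z ^ (a * ((N : ℤ) / δ)) := by
  have hN : (N : ℂ) ≠ 0 := Nat.cast_ne_zero.mpr (NeZero.ne N)
  have hδ0 : (δ : ℂ) ≠ 0 := Int.cast_ne_zero.mpr hδ.ne'
  have hcast : ((δ.toNat : ℕ) : ℂ) = (δ : ℂ) := by
    have h1 : ((δ.toNat : ℕ) : ℤ) = δ := Int.toNat_of_nonneg hδ.le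
    have h2 : ((δ.toNat : ℕ) : ℂ) = (((δ.toNat : ℕ) : ℤ) : ℂ) := (Int.cast_natCast _).symm
    rw [h2, h1]
  have hdiv : (((N : ℤ) / δ : ℤ) : ℂ) = (N : ℂ) / (δ : ℂ) := by
    rw [Int.cast_div hδN hδ0]
    simp
  unfold qOf tOf
  rw [hcast, ← Complex.exp_int_mul, ← Complex.exp_int_mul, ← Complex.exp_add, hw]
  congr 1
  rw [Int.cast_mul, hdiv]
  field_simp
  ring

/-- The `t`-expansion (`t = e^{2πiz/N}`) of `z ↦ j((a z + b)/δ)` (`a, δ > 0`, `δ ∣ N`) has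
coefficients in `ℚ̄`. -/
theorem Jfun_affine_hasTExp (N : ℕ) [NeZero N] (a b δ : ℤ) (ha : 0 < a) (hδ : 0 < δ)
    (hδN : δ ∣ (N : ℤ)) (w : ℍ → ℍ) (hw : ∀ z : ℍ, ((w z : ℍ) : ℂ) = ((a : ℂ) * z + b) / δ) :
    ∃ G : LaurentSeries Qb, HasTExp N (fun z => Jfun (w z)) (coeffMap φ G) := by
  classical
  have : NeZero δ.toNat := ⟨by omega⟩
  obtain ⟨ζ, hζ⟩ := exists_root_of_unity δ.toNat
  have hNpos : (0 : ℤ) < (N : ℤ) := Int.natCast_pos.mpr (Nat.pos_of_ne_zero (NeZero.ne N))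
  have hquot : 0 < (N : ℤ) / δ := Int.ediv_pos_of_pos_of_dvd hNpos hδ.le hδN
  obtain ⟨e, he⟩ : ∃ e : ℤ, e = a * ((N : ℤ) / δ) := ⟨_, rfl⟩
  have hepos : 0 < e := by rw [he]; exact mul_pos ha hquot
  have he0 : e ≠ 0 := hepos.ne'
  -- the coefficient function
  let c : ℤ → Qb := fun n =>
    if e ∣ n then ζ ^ (b * (n / e)) * algebraMap ℚ Qb (jq.coeff (n / e)) else 0
  have hc_mul : ∀ k : ℤ, c (e * k) = ζ ^ (b * k) * algebraMap ℚ Qb (jq.coeff k) := by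
    intro k
    simp only [c]
    rw [if_pos (dvd_mul_right e k), Int.mul_ediv_cancel_left k he0]
  have hc_not : ∀ n : ℤ, ¬ e ∣ n → c n = 0 := by
    intro n hn
    simp only [c]
    rw [if_neg hn]
  have hbdd : BddBelow (Function.support c) := by
    refine ⟨-e, fun n hn => ?_⟩
    by_contra hlt
    have hlt' : n < -e := not_le.mp hlt
    apply hn
    by_cases hd : e ∣ n
    · obtain ⟨k, rfl⟩ := hd
      have hk : k < -1 := by
        by_contra hk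
        have hk' : -1 ≤ k := not_lt.mp hk
        have h1 : e * (-1) ≤ e * k := mul_le_mul_of_nonneg_left hk' hepos.le
        linarith
      rw [hc_mul, coeff_jq_of_lt hk, map_zero, mul_zero]
    · exact hc_not n hd
  refine ⟨HahnSeries.ofSuppBddBelow c hbdd, ?_⟩
  intro z
  have hinj : Function.Injective (fun k : ℤ => e * k) := mul_right_injective₀ he0
  have hzero : ∀ n : ℤ, n ∉ Set.range (fun k : ℤ => e * k) →
      (coeffMap φ (HahnSeries.ofSuppBddBelow c hbdd)).coeff n * tOf N z ^ n = 0 := by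
    intro n hn
    have hnd : ¬ e ∣ n := by
      rintro ⟨k, rfl⟩
      exact hn ⟨k, rfl⟩
    rw [coeffMap_coeff, HahnSeries.coeff_ofSuppBddBelow, hc_not n hnd, map_zero, zero_mul]
  rw [← hinj.hasSum_iff hzero]
  have hq : qOf (w z) = φ ζ ^ b * tOf N z ^ e := by
    rw [hζ, he]
    exact qOf_affine N a b δ hδ hδN (w z) z (hw z)
  have hfun : ((fun n : ℤ => (coeffMap φ (HahnSeries.ofSuppBddBelow c hbdd)).coeff n *
      tOf N z ^ n) ∘ fun k : ℤ => e * k) =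
      fun k : ℤ => ((jq.coeff k : ℚ) : ℂ) * qOf (w z) ^ k := by
    funext k
    show (coeffMap φ (HahnSeries.ofSuppBddBelow c hbdd)).coeff (e * k) * tOf N z ^ (e * k) = _
    rw [coeffMap_coeff, HahnSeries.coeff_ofSuppBddBelow, hc_mul, map_mul, map_zpow₀,
      φ_algebraMap_rat, hq, mul_zpow, zpow_mul, zpow_mul]
    ring
  rw [hfun]
  exact Jfun_hasSum (w z)

end Fermat.Agent.S24
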