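import Fermat.Agent.S24.Ana.Base.EvGen

/-!
# S24 / B1 / Base: matrix identities for `z ↦ d z` and `SL₂(ℤ)`
-/

set_option autoImplicit false

noncomputable section

namespace Fermat.Agent.S24

open UpperHalfPlane
open scoped MatrixGroups

/-- The element `(A B; C D)` of `SL₂(ℤ)`. -/
def Matrix24.mkSL (A B C D : ℤ) (h : A * D - B * C = 1) : SL(2, ℤ) :=
  ⟨!![A, B; C, D], by rw [Matrix.det_fin_two_of]; exact h⟩

/-- `c z + d ≠ 0` for integers `(c, d) ≠ (0, 0)` and `z ∈ ℍ`. -/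
theorem Matrix24.denom_ne_zero (c d : ℤ) (h : c ≠ 0 ∨ d ≠ 0) (z : ℍ) :
    (c : ℂ) * (z : ℂ) + (d : ℂ) ≠ 0 := by
  intro h0
  have him : (c : ℝ) * z.im = 0 := by
    have := congrArg Complex.im h0
    simpa using this
  have hc : c = 0 := by
    rcases mul_eq_zero.mp him with h1 | h1
    · exact_mod_cast h1
    · exact absurd h1 z.im_pos.ne'
  subst hc
  have hd : d = 0 := by
    have h1 : (d : ℂ) = 0 := by simpa using h0
    exact_mod_cast h1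
  subst hd
  simp at h

/-- The determinant relation of an element of `SL₂(ℤ)`. -/
theorem Matrix24.det_eq (g : SL(2, ℤ)) : g 0 0 * g 1 1 - g 0 1 * g 1 0 = 1 := by
  have h := g.det_coe
  rwa [Matrix.det_fin_two] at h

/-- The formula for the action of `SL₂(ℤ)` on `ℍ`, with integer casts. -/
theorem Matrix24.coe_smul (g : SL(2, ℤ)) (z : ℍ) :
    ((g • z : ℍ) : ℂ) =
      ((g 0 0 : ℂ) * z + (g 0 1 : ℂ)) / ((g 1 0 : ℂ) * z + (g 1 1 : ℂ)) := by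
  rw [UpperHalfPlane.coe_specialLinearGroup_apply]
  simp

/-- The denominator of the action of `SL₂(ℤ)` on `ℍ` does not vanish. -/
theorem Matrix24.denom_ne_zero' (g : SL(2, ℤ)) (z : ℍ) :
    (g 1 0 : ℂ) * (z : ℂ) + (g 1 1 : ℂ) ≠ 0 := by
  refine Matrix24.denom_ne_zero _ _ ?_ z
  by_contra h
  simp only [ne_eq, not_or, not_not] at h
  have hdet := Matrix24.det_eq g
  rw [h.1, h.2] at hdet
  simp at hdet

/-- The action of `SL₂(ℤ)` on `ℍ`, multiplied out. -/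
theorem Matrix24.coe_smul_mul (g : SL(2, ℤ)) (z : ℍ) :
    ((g • z : ℍ) : ℂ) * ((g 1 0 : ℂ) * z + (g 1 1 : ℂ)) = (g 0 0 : ℂ) * z + (g 0 1 : ℂ) := by
  rw [Matrix24.coe_smul, div_mul_cancel₀ _ (Matrix24.denom_ne_zero' g z)]

/-- Criterion for `w' = γ • w`. -/
theorem Matrix24.eq_smul_of (γ : SL(2, ℤ)) (w w' : ℍ)
    (h : (w' : ℂ) * ((γ 1 0 : ℂ) * w + (γ 1 1 : ℂ)) = (γ 0 0 : ℂ) * w + (γ 0 1 : ℂ)) :
    w' = γ • w := by
  apply UpperHalfPlane.ext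
  rw [Matrix24.coe_smul, eq_div_iff (Matrix24.denom_ne_zero' γ w)]
  exact h

/-- Criterion for `w' = (A B; C D) • w`. -/
theorem Matrix24.eq_mkSL_smul (A B C D : ℤ) (hdet : A * D - B * C = 1) (w w' : ℍ)
    (h : (w' : ℂ) * ((C : ℂ) * w + (D : ℂ)) = (A : ℂ) * w + (B : ℂ)) :
    w' = Matrix24.mkSL A B C D hdet • w :=
  Matrix24.eq_smul_of _ w w' h

/-- For `γ = (α β; Nγ' δ) ∈ Γ₀(N)` and `d ∣ N`: `d·(γ z) = γ''·(d z)` with
`γ'' = (α dβ; (N/d)γ' δ) ∈ SL₂(ℤ)`. -/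
theorem dmul_smul_Gamma0 (N d : ℕ) [NeZero N] [NeZero d] (hd : d ∣ N) (γ : SL(2, ℤ))
    (hγ : γ ∈ CongruenceSubgroup.Gamma0 N) :
    ∃ γ' : SL(2, ℤ), ∀ z : ℍ, dmul d (γ • z) = γ' • dmul d z := by
  have hN : (N : ℤ) ∣ γ 1 0 :=
    (ZMod.intCast_zmod_eq_zero_iff_dvd _ N).mp (CongruenceSubgroup.Gamma0_mem.mp hγ)
  have hdN : (d : ℤ) ∣ γ 1 0 := (Int.natCast_dvd_natCast.mpr hd).trans hN
  obtain ⟨k, hk⟩ := hdN
  have hdet := Matrix24.det_eq γ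
  have hdet' : γ 0 0 * γ 1 1 - (d * γ 0 1) * k = 1 := by
    rw [hk] at hdet
    linear_combination hdet
  refine ⟨Matrix24.mkSL (γ 0 0) (d * γ 0 1) k (γ 1 1) hdet', fun z => ?_⟩
  apply Matrix24.eq_mkSL_smul
  have hB := Matrix24.coe_smul_mul γ z
  have hk' : (γ 1 0 : ℂ) = (d : ℂ) * (k : ℂ) := by
    rw [hk]
    push_cast
    ring
  rw [coe_dmul, coe_dmul]
  push_cast
  linear_combination (d : ℂ) * hB - (d : ℂ) * ((γ • z : ℍ) : ℂ) * (z : ℂ) * hk'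

/-- **Triangular decomposition**: `diag(d,1)·g = γ'·(a b; 0 δ)` with `γ' ∈ SL₂(ℤ)`, `a δ = d`,
`a = gcd(d·g₀₀, g₁₀) > 0`.  In terms of the action on `ℍ`:
`d·(g z) = γ'·((a z + b)/δ)`. -/
theorem dmul_smul_triangular (d : ℕ) [NeZero d] (g : SL(2, ℤ)) :
    ∃ (γ' : SL(2, ℤ)) (a b δ : ℤ), 0 < a ∧ 0 < δ ∧ a * δ = d ∧
      a = Int.gcd ((d : ℤ) * g 0 0) (g 1 0) ∧
      ∀ z : ℍ, ∃ w : ℍ, (w : ℂ) = ((a : ℂ) * z + b) / δ ∧ dmul d (g • z) = γ' • w := by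
  have hdet := Matrix24.det_eq g
  have hdpos : (0 : ℤ) < d := by exact_mod_cast Nat.pos_of_ne_zero (NeZero.ne d)
  -- the gcd `e`
  obtain ⟨e, he⟩ : ∃ e : ℤ, e = Int.gcd ((d : ℤ) * g 0 0) (g 1 0) := ⟨_, rfl⟩
  have hepos : 0 < e := by
    rw [he]
    have : 0 < Int.gcd ((d : ℤ) * g 0 0) (g 1 0) := by
      rw [Int.gcd_pos_iff]
      by_contra h
      simp only [ne_eq, not_or, not_not] at h
      have h00 : g 0 0 = 0 := by
        rcases mul_eq_zero.mp h.1 with h1 | h1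
        · exact absurd h1 hdpos.ne'
        · exact h1
      rw [h00, h.2] at hdet
      simp at hdet
    exact_mod_cast this
  have he1 : e ∣ (d : ℤ) * g 0 0 := he ▸ Int.gcd_dvd_left _ _
  have he2 : e ∣ g 1 0 := he ▸ Int.gcd_dvd_right _ _
  have hed : e ∣ (d : ℤ) := by
    have h1 : e ∣ g 1 1 * ((d : ℤ) * g 0 0) - ((d : ℤ) * g 0 1) * g 1 0 :=
      dvd_sub (Dvd.dvd.mul_left he1 _) (Dvd.dvd.mul_left he2 _)
    have h2 : g 1 1 * ((d : ℤ) * g 0 0) - ((d : ℤ) * g 0 1) * g 1 0 = d := by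
      linear_combination (d : ℤ) * hdet
    rwa [h2] at h1
  obtain ⟨δ, hδ⟩ := hed
  obtain ⟨R, hR⟩ := he2
  have hδpos : 0 < δ := by
    rw [hδ] at hdpos
    exact pos_of_mul_pos_right hdpos hepos.le
  -- Bezout
  have hab := Int.gcd_eq_gcd_ab ((d : ℤ) * g 0 0) (g 1 0)
  rw [← he] at hab
  set x := Int.gcdA ((d : ℤ) * g 0 0) (g 1 0) with hx
  set y := Int.gcdB ((d : ℤ) * g 0 0) (g 1 0) with hy
  -- `P = d p / e = δ p`
  have hbez : (δ * g 0 0) * x + R * y = 1 := by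
    apply mul_left_cancel₀ hepos.ne'
    linear_combination -hab - y * hR - x * g 0 0 * hδ
  have hdet' : (δ * g 0 0) * x - (-y) * R = 1 := by
    linear_combination hbez
  refine ⟨Matrix24.mkSL (δ * g 0 0) (-y) R x hdet', e, x * d * g 0 1 + y * g 1 1, δ, hepos, hδpos,
    hδ.symm, he, fun z => ?_⟩
  -- the four entry identities
  have c1 : (δ * g 0 0) * e = d * g 0 0 := by
    linear_combination -g 0 0 * hδ
  have c2 : R * e = g 1 0 := by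
    linear_combination -hR
  have c3 : (δ * g 0 0) * (x * d * g 0 1 + y * g 1 1) + (-y) * δ = d * g 0 1 := by
    linear_combination (d * g 0 1) * hbez + y * δ * hdet + y * δ * g 0 1 * hR -
      y * R * g 0 1 * hδ
  have c4 : R * (x * d * g 0 1 + y * g 1 1) + x * δ = g 1 1 := by
    linear_combination g 1 1 * hbez - x * δ * hdet - x * δ * g 0 1 * hR +
      x * R * g 0 1 * hδ
  have c1' : ((δ : ℂ) * (g 0 0 : ℂ)) * (e : ℂ) = (d : ℂ) * (g 0 0 : ℂ) := by exact_mod_cast c1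
  have c2' : (R : ℂ) * (e : ℂ) = (g 1 0 : ℂ) := by exact_mod_cast c2
  have c3' : ((δ : ℂ) * (g 0 0 : ℂ)) * ((x : ℂ) * (d : ℂ) * (g 0 1 : ℂ) + (y : ℂ) * (g 1 1 : ℂ)) +
      (-(y : ℂ)) * (δ : ℂ) = (d : ℂ) * (g 0 1 : ℂ) := by exact_mod_cast c3
  have c4' : (R : ℂ) * ((x : ℂ) * (d : ℂ) * (g 0 1 : ℂ) + (y : ℂ) * (g 1 1 : ℂ)) +
      (x : ℂ) * (δ : ℂ) = (g 1 1 : ℂ) := by exact_mod_cast c4
  have hδ0 : (δ : ℂ) ≠ 0 := by exact_mod_cast hδpos.ne'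
  have hδR : (0 : ℝ) < δ := by exact_mod_cast hδpos
  have heR : (0 : ℝ) < e := by exact_mod_cast hepos
  -- the point `w`
  have him : 0 < (((e : ℂ) * z + ((x * d * g 0 1 + y * g 1 1 : ℤ) : ℂ)) / (δ : ℂ)).im := by
    have h1 : (((e : ℂ) * z + ((x * d * g 0 1 + y * g 1 1 : ℤ) : ℂ)) / (δ : ℂ)).im =
        (e : ℝ) * z.im / (δ : ℝ) := by
      rw [← Complex.ofReal_intCast δ, Complex.div_ofReal_im]
      simp
    rw [h1]
    exact div_pos (mul_pos heR z.im_pos) hδR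
  refine ⟨⟨((e : ℂ) * z + ((x * d * g 0 1 + y * g 1 1 : ℤ) : ℂ)) / (δ : ℂ), him⟩, rfl, ?_⟩
  apply Matrix24.eq_mkSL_smul
  have hB := Matrix24.coe_smul_mul g z
  rw [coe_dmul]
  show (d : ℂ) * ((g • z : ℍ) : ℂ) *
      ((R : ℂ) * (((e : ℂ) * z + ((x * d * g 0 1 + y * g 1 1 : ℤ) : ℂ)) / (δ : ℂ)) + (x : ℂ)) =
    ((δ * g 0 0 : ℤ) : ℂ) * (((e : ℂ) * z + ((x * d * g 0 1 + y * g 1 1 : ℤ) : ℂ)) / (δ : ℂ)) +
      ((-y : ℤ) : ℂ)
  push_cast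
  have key : (d : ℂ) * ((g • z : ℍ) : ℂ) *
      ((R : ℂ) * ((e : ℂ) * z + ((x : ℂ) * (d : ℂ) * (g 0 1 : ℂ) + (y : ℂ) * (g 1 1 : ℂ))) +
        (x : ℂ) * (δ : ℂ)) =
      ((δ : ℂ) * (g 0 0 : ℂ)) *
        ((e : ℂ) * z + ((x : ℂ) * (d : ℂ) * (g 0 1 : ℂ) + (y : ℂ) * (g 1 1 : ℂ))) +
        (-(y : ℂ)) * (δ : ℂ) := by
    linear_combination (d : ℂ) * ((g • z : ℍ) : ℂ) * (z : ℂ) * c2' +
      (d : ℂ) * ((g • z : ℍ) : ℂ) * c4' + (d : ℂ) * hB - (z : ℂ) * c1' - c3'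
  field_simp
  linear_combination key

end Fermat.Agent.S24
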