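import Fermat.Agent.S24.Ana.Base.EvRing
import Fermat.Agent.S24.Ana.Base.Matrix

/-!
# S24 / B1 / Base: distinct cosets give distinct conjugates
-/

set_option autoImplicit false

noncomputable section

namespace Fermat.Agent.S24

open AlgebraicCurve ModularCurve IntermediateField UpperHalfPlane Filter Topology
open scoped MatrixGroups

/-- `j(w)·q(w) → 1` as `Im w → ∞`. -/
theorem Jfun_mul_qOf_tendsto : Tendsto (fun w : ℍ => Jfun w * qOf w) atImInfty (𝓝 1) := by
  have h1 : Tendsto (fun w : ℍ => ModularForm.E₄ w ^ 3) atImInfty (𝓝 1) := by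
    simpa using E4_tendsto_one.pow 3
  have h2 := ModularForm.tendsto_atImInfty_tprod_one_sub_eta_q_pow
  have h3 : Tendsto (fun w : ℍ => ModularForm.E₄ w ^ 3 /
      ∏' n : ℕ, (1 - ModularForm.eta_q n w) ^ 24) atImInfty (𝓝 (1 / 1)) :=
    h1.div h2 one_ne_zero
  rw [div_one] at h3
  refine h3.congr (fun w => ?_)
  have hq := qOf_ne_zero w
  unfold Jfun
  rw [ModularForm.discriminant_eq_q_prod, ← JHasSum.qOf_eq_qParam, div_mul_eq_mul_div,
    mul_comm (ModularForm.E₄ w ^ 3) (qOf w), mul_div_mul_left _ _ hq]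

/-- The norm of `q(w)` is `exp (-2π Im w)`. -/
theorem Distinct.norm_qOf (w : ℍ) : ‖qOf w‖ = Real.exp (-(2 * Real.pi * w.im)) := by
  unfold qOf
  rw [Complex.norm_exp]
  congr 1
  simp

/-- The point `(n + 1) i` of the upper half plane. -/
def Distinct.zn (n : ℕ) : ℍ :=
  ⟨(((n : ℝ) + 1 : ℝ) : ℂ) * Complex.I, by
    have h : (0 : ℝ) < (n : ℝ) + 1 := by positivity
    simpa using h⟩

theorem Distinct.zn_im (n : ℕ) : (Distinct.zn n).im = (n : ℝ) + 1 := by
  change ((((n : ℝ) + 1 : ℝ) : ℂ) * Complex.I).im = (n : ℝ) + 1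
  simp

theorem Distinct.tendsto_natCast_add_one :
    Tendsto (fun n : ℕ => (n : ℝ) + 1) atTop atTop :=
  tendsto_atTop_add_const_right _ _ tendsto_natCast_atTop_atTop

/-- If `j((a z + b)/δ) = j(N z)` for all `z` (with `a, δ > 0`, `a δ = N`), then `a = N`. -/
theorem eq_of_Jfun_affine_eq (N : ℕ) [NeZero N] (a b δ : ℤ) (ha : 0 < a) (hδ : 0 < δ)
    (hN : a * δ = N)
    (h : ∀ z w : ℍ, (w : ℂ) = ((a : ℂ) * z + b) / δ → Jfun w = Jfun (dmul N z)) : a = N := by
  have haR : (0 : ℝ) < (a : ℝ) := by exact_mod_cast ha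
  have hδR : (0 : ℝ) < (δ : ℝ) := by exact_mod_cast hδ
  have hNR : (0 : ℝ) < (N : ℝ) := by exact_mod_cast Nat.pos_of_ne_zero (NeZero.ne N)
  have hδC : (δ : ℂ) ≠ 0 := by exact_mod_cast hδ.ne'
  -- the points `w_n = (a z_n + b)/δ`
  have him : ∀ n : ℕ, (((a : ℂ) * (Distinct.zn n : ℂ) + b) / δ).im = (a : ℝ) * ((n : ℝ) + 1) / δ := by
    intro n
    have e : ((a : ℂ) * (Distinct.zn n : ℂ) + b) / δ =
        (((b : ℝ) / (δ : ℝ) : ℝ) : ℂ) + (((a : ℝ) * ((n : ℝ) + 1) / δ : ℝ) : ℂ) * Complex.I := by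
      change ((a : ℂ) * ((((n : ℝ) + 1 : ℝ) : ℂ) * Complex.I) + b) / δ = _
      push_cast
      field_simp
      ring
    rw [e]
    simp
  have hpos : ∀ n : ℕ, 0 < (((a : ℂ) * (Distinct.zn n : ℂ) + b) / δ).im := by
    intro n
    rw [him n]
    positivity
  set wn : ℕ → ℍ := fun n => ⟨((a : ℂ) * (Distinct.zn n : ℂ) + b) / δ, hpos n⟩ with hwn
  have hwn_im : ∀ n, (wn n).im = (a : ℝ) * ((n : ℝ) + 1) / δ := fun n => him n
  have hdm_im : ∀ n, (dmul N (Distinct.zn n)).im = (N : ℝ) * ((n : ℝ) + 1) := by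
    intro n
    change ((N : ℂ) * (Distinct.zn n : ℂ)).im = _
    rw [Complex.mul_im, Complex.natCast_re, Complex.natCast_im, zero_mul, add_zero]
    congr 1
    exact Distinct.zn_im n
  have hJ : ∀ n, Jfun (wn n) = Jfun (dmul N (Distinct.zn n)) := fun n => h _ _ rfl
  -- both sequences of points tend to `i∞`
  have hw_tend : Tendsto wn atTop atImInfty := by
    rw [atImInfty, tendsto_comap_iff]
    have : (UpperHalfPlane.im ∘ wn) = fun n : ℕ => ((n : ℝ) + 1) * ((a : ℝ) / δ) := by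
      funext n
      simp only [Function.comp, hwn_im]
      ring
    rw [this]
    exact Distinct.tendsto_natCast_add_one.atTop_mul_const (div_pos haR hδR)
  have hz_tend : Tendsto (fun n => dmul N (Distinct.zn n)) atTop atImInfty := by
    rw [atImInfty, tendsto_comap_iff]
    have : (UpperHalfPlane.im ∘ fun n => dmul N (Distinct.zn n)) =
        fun n : ℕ => ((n : ℝ) + 1) * (N : ℝ) := by
      funext n
      simp only [Function.comp, hdm_im]
      ring
    rw [this]
    exact Distinct.tendsto_natCast_add_one.atTop_mul_const hNR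
  set u : ℕ → ℝ := fun n => ‖Jfun (wn n) * qOf (wn n)‖ with hu_def
  set v : ℕ → ℝ := fun n => ‖Jfun (dmul N (Distinct.zn n)) * qOf (dmul N (Distinct.zn n))‖
    with hv_def
  have hu : Tendsto u atTop (𝓝 1) := by
    have := (Jfun_mul_qOf_tendsto.comp hw_tend).norm
    rw [norm_one] at this
    exact this
  have hv : Tendsto v atTop (𝓝 1) := by
    have := (Jfun_mul_qOf_tendsto.comp hz_tend).norm
    rw [norm_one] at this
    exact this
  set r : ℝ := Real.exp (2 * Real.pi * ((N : ℝ) - (a : ℝ) / δ)) with hr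
  have huv : ∀ n, u n = v n * r ^ (n + 1) := by
    intro n
    have e1 : Real.exp (-(2 * Real.pi * ((a : ℝ) * ((n : ℝ) + 1) / δ))) =
        Real.exp (-(2 * Real.pi * ((N : ℝ) * ((n : ℝ) + 1)))) * r ^ (n + 1) := by
      rw [hr, ← Real.exp_nat_mul, ← Real.exp_add]
      congr 1
      push_cast
      field_simp
      ring
    simp only [hu_def, hv_def]
    rw [norm_mul, norm_mul, Distinct.norm_qOf, Distinct.norm_qOf, hJ n, hwn_im, hdm_im, e1]
    ring
  have hu1 : Tendsto (fun n => u (n + 1)) atTop (𝓝 1) := (tendsto_add_atTop_iff_nat 1).mpr hu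
  have hv1 : Tendsto (fun n => v (n + 1)) atTop (𝓝 1) := (tendsto_add_atTop_iff_nat 1).mpr hv
  have hL : Tendsto (fun n => u (n + 1) * v n) atTop (𝓝 (1 * 1)) := hu1.mul hv
  have hR : Tendsto (fun n => v (n + 1) * r * u n) atTop (𝓝 (1 * r * 1)) :=
    (hv1.mul_const r).mul hu
  have hfun : (fun n => u (n + 1) * v n) = fun n => v (n + 1) * r * u n := by
    funext n
    rw [huv (n + 1), huv n]
    ring
  rw [hfun] at hL
  have hr1 : r = 1 := by
    have := tendsto_nhds_unique hR hL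
    linarith
  have hexp : 2 * Real.pi * ((N : ℝ) - (a : ℝ) / δ) = 0 := Real.exp_eq_one_iff _ |>.mp hr1
  have hNa : (N : ℝ) * δ = a := by
    have h2 : (N : ℝ) - (a : ℝ) / δ = 0 := by
      rcases mul_eq_zero.mp hexp with h0 | h0
      · exact absurd h0 (by positivity)
      · exact h0
    field_simp at h2
    linarith
  have hNaZ : (N : ℤ) * δ = a := by exact_mod_cast hNa
  -- `a = N δ` and `a δ = N` force `δ = 1`
  have hδ1 : δ = 1 := by
    have h3 : a * (δ * δ - 1) = 0 := by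
      have : a * δ * δ = a := by rw [hN]; exact hNaZ
      linear_combination this
    have h4 : δ * δ - 1 = 0 := (mul_eq_zero.mp h3).resolve_left ha.ne'
    have h5 : δ * δ = 1 := by linarith
    rcases mul_self_eq_one_iff.mp h5 with h6 | h6
    · exact h6
    · omega
  rw [← hN, hδ1, mul_one]

/-- If `j(N·γ z) = j(N z)` for all `z`, then `γ ∈ Γ₀(N)`. -/
theorem mem_Gamma0_of_Jfun_dmul (N : ℕ) [NeZero N] (γ : SL(2, ℤ))
    (h : ∀ z : ℍ, Jfun (dmul N (γ • z)) = Jfun (dmul N z)) : γ ∈ CongruenceSubgroup.Gamma0 N := by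
  obtain ⟨γ', a, b, δ, ha, hδ, hN, hgcd, hw⟩ := dmul_smul_triangular N γ
  have haN : a = N := by
    refine eq_of_Jfun_affine_eq N a b δ ha hδ hN ?_
    intro z w hzw
    obtain ⟨w', hw', hdm⟩ := hw z
    have hww : w' = w := UpperHalfPlane.ext (hw'.trans hzw.symm)
    rw [hww] at hdm
    rw [← h z, hdm, Jfun_smul]
  rw [CongruenceSubgroup.Gamma0_mem, ZMod.intCast_zmod_eq_zero_iff_dvd]
  have hdvd : ((Int.gcd ((N : ℤ) * γ 0 0) (γ 1 0) : ℕ) : ℤ) ∣ γ 1 0 := Int.gcd_dvd_right _ _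
  rw [← hgcd, haN] at hdvd
  exact hdvd

theorem conjFun_distinct_impl (N : ℕ) [NeZero N] (g g' : SL(2, ℤ))
    (h : ∀ a : coordRing N, conjFun N g a = conjFun N g' a) :
    (QuotientGroup.mk g : Cosets N) = QuotientGroup.mk g' := by
  rw [QuotientGroup.eq]
  apply mem_Gamma0_of_Jfun_dmul
  intro z
  have hmem : jd N N dvd_rfl ∈ coordRing N :=
    Algebra.subset_adjoin ⟨N, inferInstance, dvd_rfl, rfl⟩
  have h1 := congrFun (h ⟨jd N N dvd_rfl, hmem⟩) (g' • z)
  simp only [conjFun] at h1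
  rw [evFun_jd N N dvd_rfl] at h1
  simp only [inv_smul_smul] at h1
  rw [mul_smul]
  exact h1

end Fermat.Agent.S24
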