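import Fermat.Agent.S24.Ana.Defs
import Fermat.Agent.S24.Ana.JFacts
import Fermat.Agent.S24.Ana.TExp

/-!
# S24 / B1 / Base: evaluation of the generators `j(q^d)` of the coordinate ring
-/

set_option autoImplicit false

noncomputable section

namespace Fermat.Agent.S24

open AlgebraicCurve ModularCurve IntermediateField UpperHalfPlane
open scoped MatrixGroups Manifold

/-- `z ↦ d·z` on `ℍ` (for `d > 0`). -/
def dmul (d : ℕ) [NeZero d] (z : ℍ) : ℍ :=
  ⟨(d : ℂ) * z, by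
    have hd : (0 : ℝ) < d := by exact_mod_cast Nat.pos_of_ne_zero (NeZero.ne d)
    simpa using mul_pos hd z.im_pos⟩

@[simp]
theorem coe_dmul (d : ℕ) [NeZero d] (z : ℍ) : ((dmul d z : ℍ) : ℂ) = (d : ℂ) * z := rfl

theorem tOf_one_eq_qOf (z : ℍ) : tOf 1 z = qOf z := by
  simp [tOf, qOf]

theorem qOf_dmul (d : ℕ) [NeZero d] (z : ℍ) : qOf (dmul d z) = qOf z ^ d := by
  unfold qOf
  rw [← Complex.exp_nat_mul, coe_dmul]
  congr 1
  ring

theorem tOf_pow_eq_qOf (N : ℕ) [NeZero N] (z : ℍ) : tOf N z ^ N = qOf z := by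
  have hN : (N : ℂ) ≠ 0 := Nat.cast_ne_zero.mpr (NeZero.ne N)
  unfold tOf qOf
  rw [← Complex.exp_nat_mul]
  congr 1
  field_simp

theorem φ_algebraMap_rat (r : ℚ) : φ (algebraMap ℚ Qb r) = (r : ℂ) := by
  simp

theorem φ_inj : Function.Injective φ := φ.injective

theorem coeffMap_φ_injective : Function.Injective (coeffMap φ) := by
  intro x y h
  ext k
  have hk : (coeffMap φ x).coeff k = (coeffMap φ y).coeff k := by rw [h]
  rw [coeffMap_coeff, coeffMap_coeff] at hk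
  exact φ_inj hk

/-- `z ↦ j(d z)` is holomorphic. -/
theorem Jfun_dmul_mdiff (d : ℕ) [NeZero d] :
    MDifferentiable 𝓘(ℂ) 𝓘(ℂ) (fun z : ℍ => Jfun (dmul d z)) := by
  rw [UpperHalfPlane.mdifferentiable_iff]
  have hJ : DifferentiableOn ℂ (Jfun ∘ ofComplex) {z : ℂ | 0 < z.im} :=
    UpperHalfPlane.mdifferentiable_iff.mp Jfun_mdiff
  have hd : (0 : ℝ) < d := by exact_mod_cast Nat.pos_of_ne_zero (NeZero.ne d)
  have hmaps : Set.MapsTo (fun w : ℂ => (d : ℂ) * w) {z : ℂ | 0 < z.im} {z : ℂ | 0 < z.im} := by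
    intro w hw
    have hw' : 0 < w.im := hw
    show 0 < ((d : ℂ) * w).im
    simpa using mul_pos hd hw'
  have hcomp : DifferentiableOn ℂ ((Jfun ∘ ofComplex) ∘ fun w : ℂ => (d : ℂ) * w)
      {z : ℂ | 0 < z.im} :=
    hJ.comp (differentiableOn_id.const_mul (d : ℂ)) hmaps
  refine hcomp.congr ?_
  intro w hw
  have hw' : 0 < w.im := hw
  have hdw : 0 < ((d : ℂ) * w).im := hmaps hw
  show Jfun (dmul d (ofComplex w)) = Jfun (ofComplex ((d : ℂ) * w))
  congr 1
  apply UpperHalfPlane.ext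
  rw [coe_dmul, ofComplex_apply_of_im_pos hw', ofComplex_apply_of_im_pos hdw]

/-- The generator `j(q^d)` converges to `z ↦ j(d z)`. -/
theorem jd_hasTExp_one (N d : ℕ) [NeZero d] (hd : d ∣ N) :
    HasTExp 1 (fun z : ℍ => Jfun (dmul d z))
      (coeffMap φ ((jd N d hd : FN N) : LaurentSeries Qb)) := by
  intro z
  have hcoeff : ∀ n : ℤ, (coeffMap φ ((jd N d hd : FN N) : LaurentSeries Qb)).coeff n =
      (((qExpand ℚ d jq).coeff n : ℚ) : ℂ) := by
    intro n
    show φ (algebraMap ℚ Qb ((qExpand ℚ d jq).coeff n)) = _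
    exact φ_algebraMap_rat _
  have hd0 : (d : ℤ) ≠ 0 := Int.natCast_ne_zero.mpr (NeZero.ne d)
  have hinj : Function.Injective (fun k : ℤ => (d : ℤ) * k) := mul_right_injective₀ hd0
  have hzero : ∀ n : ℤ, n ∉ Set.range (fun k : ℤ => (d : ℤ) * k) →
      (coeffMap φ ((jd N d hd : FN N) : LaurentSeries Qb)).coeff n * tOf 1 z ^ n = 0 := by
    intro n hn
    have hnd : ¬ (d : ℤ) ∣ n := by
      rintro ⟨k, rfl⟩
      exact hn ⟨k, rfl⟩
    rw [hcoeff, qExpand_coeff_of_not_dvd d jq hnd, Rat.cast_zero, zero_mul]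
  rw [← hinj.hasSum_iff hzero]
  have hfun : ((fun n : ℤ =>
      (coeffMap φ ((jd N d hd : FN N) : LaurentSeries Qb)).coeff n * tOf 1 z ^ n) ∘
        fun k : ℤ => (d : ℤ) * k) =
      fun k : ℤ => ((jq.coeff k : ℚ) : ℂ) * qOf (dmul d z) ^ k := by
    funext k
    show (coeffMap φ ((jd N d hd : FN N) : LaurentSeries Qb)).coeff ((d : ℤ) * k) *
      tOf 1 z ^ ((d : ℤ) * k) = _
    rw [hcoeff, qExpand_coeff_mul, zpow_mul, zpow_natCast, tOf_one_eq_qOf, qOf_dmul]
  rw [hfun]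
  exact Jfun_hasSum (dmul d z)

/-- If the `q`-series `a` converges to `f`, then `evFun a = f`. -/
theorem evFun_eq_of_hasTExp {a : LaurentSeries Qb} {f : ℍ → ℂ}
    (h : HasTExp 1 f (coeffMap φ a)) : evFun a = f := by
  funext z
  have hz : HasSum (fun n : ℤ => φ (a.coeff n) * qOf z ^ n) (f z) := by
    have h1 := h z
    simp only [coeffMap_coeff, tOf_one_eq_qOf] at h1
    exact h1
  exact hz.tsum_eq

end Fermat.Agent.S24
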