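import Fermat.Agent.S24.Ana.Base.EvGen

/-!
# S24 / B1 / Base: `evFun` is an injective ring homomorphism on the coordinate ring,
with values in holomorphic functions
-/

set_option autoImplicit false

noncomputable section

namespace Fermat.Agent.S24

open AlgebraicCurve ModularCurve IntermediateField UpperHalfPlane
open scoped MatrixGroups Manifold

/-- The image in `LaurentSeries ℂ` of a constant of the function field. -/
theorem EvRing.coeffMap_φ_algebraMap (N : ℕ) (c : Qb) :
    coeffMap φ ((algebraMap Qb (FN N) c : FN N) : LaurentSeries Qb) = HahnSeries.C (φ c) := by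
  rw [IntermediateField.coe_algebraMap_apply, algebraMap_laurentSeries_eq_single, coeffMap_single]
  rfl

/-- Key statement: every element of the coordinate ring has a convergent `q`-expansion. -/
theorem EvRing.exists_hasTExp (N : ℕ) [NeZero N] (x : FN N) (hx : x ∈ coordRing N) :
    ∃ f : ℍ → ℂ, HasTExp 1 f (coeffMap φ (x : LaurentSeries Qb)) := by
  unfold coordRing at hx
  induction hx using Algebra.adjoin_induction with
  | mem x hx =>
    obtain ⟨d, hd0, hd, rfl⟩ := hx
    exact ⟨_, jd_hasTExp_one N d hd⟩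
  | algebraMap c =>
    refine ⟨fun _ => φ c, ?_⟩
    rw [EvRing.coeffMap_φ_algebraMap]
    exact HasTExp.const 1 (φ c)
  | add x y hx hy ihx ihy =>
    obtain ⟨f, hf⟩ := ihx
    obtain ⟨g, hg⟩ := ihy
    refine ⟨f + g, ?_⟩
    rw [IntermediateField.coe_add, map_add]
    exact hf.add hg
  | mul x y hx hy ihx ihy =>
    obtain ⟨f, hf⟩ := ihx
    obtain ⟨g, hg⟩ := ihy
    refine ⟨f * g, ?_⟩
    rw [IntermediateField.coe_mul, map_mul]
    exact hf.mul hg

/-- Every element of the coordinate ring is a convergent `q`-series. -/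
theorem coordRing_hasTExp_one (N : ℕ) [NeZero N] (a : coordRing N) :
    HasTExp 1 (evFun ((a : FN N) : LaurentSeries Qb)) (coeffMap φ ((a : FN N) : LaurentSeries Qb)) := by
  obtain ⟨f, hf⟩ := EvRing.exists_hasTExp N a.1 a.2
  rw [evFun_eq_of_hasTExp hf]
  exact hf

theorem evFun_coord_one (N : ℕ) [NeZero N] :
    evFun (((1 : coordRing N) : FN N) : LaurentSeries Qb) = 1 := by
  apply evFun_eq_of_hasTExp
  have h : coeffMap φ (((1 : coordRing N) : FN N) : LaurentSeries Qb) = HahnSeries.C (1 : ℂ) := by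
    rw [OneMemClass.coe_one, IntermediateField.coe_one, map_one, map_one]
  rw [h]
  exact HasTExp.const 1 1

theorem evFun_coord_zero (N : ℕ) [NeZero N] :
    evFun (((0 : coordRing N) : FN N) : LaurentSeries Qb) = 0 := by
  apply evFun_eq_of_hasTExp
  have h : coeffMap φ (((0 : coordRing N) : FN N) : LaurentSeries Qb) = HahnSeries.C (0 : ℂ) := by
    rw [ZeroMemClass.coe_zero, IntermediateField.coe_zero, map_zero, map_zero]
  rw [h]
  exact HasTExp.const 1 0

theorem evFun_coord_mul (N : ℕ) [NeZero N] (a b : coordRing N) :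
    evFun (((a * b : coordRing N) : FN N) : LaurentSeries Qb) =
      evFun ((a : FN N) : LaurentSeries Qb) * evFun ((b : FN N) : LaurentSeries Qb) := by
  apply evFun_eq_of_hasTExp
  rw [MulMemClass.coe_mul, IntermediateField.coe_mul, map_mul]
  exact (coordRing_hasTExp_one N a).mul (coordRing_hasTExp_one N b)

theorem evFun_coord_add (N : ℕ) [NeZero N] (a b : coordRing N) :
    evFun (((a + b : coordRing N) : FN N) : LaurentSeries Qb) =
      evFun ((a : FN N) : LaurentSeries Qb) + evFun ((b : FN N) : LaurentSeries Qb) := by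
  apply evFun_eq_of_hasTExp
  rw [AddMemClass.coe_add, IntermediateField.coe_add, map_add]
  exact (coordRing_hasTExp_one N a).add (coordRing_hasTExp_one N b)

theorem evFun_coord_algebraMap (N : ℕ) [NeZero N] (c : Qb) :
    evFun (((algebraMap Qb (coordRing N) c : coordRing N) : FN N) : LaurentSeries Qb) =
      fun _ => φ c := by
  apply evFun_eq_of_hasTExp
  rw [Subalgebra.coe_algebraMap, EvRing.coeffMap_φ_algebraMap]
  exact HasTExp.const 1 (φ c)

/-- The generator `j(q^d)` evaluates to `z ↦ j(d z)`. -/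
theorem evFun_jd (N d : ℕ) [NeZero N] [NeZero d] (hd : d ∣ N) :
    evFun ((jd N d hd : FN N) : LaurentSeries Qb) = fun z : ℍ => Jfun (dmul d z) :=
  evFun_eq_of_hasTExp (jd_hasTExp_one N d hd)

/-- `evFun` of `jBar N` is `j`. -/
theorem evFun_jBar (N : ℕ) [NeZero N] : evFun ((jBar N : FN N) : LaurentSeries Qb) = Jfun := by
  have h : ((jBar N : FN N) : LaurentSeries Qb) =
      ((jd N 1 (one_dvd N) : FN N) : LaurentSeries Qb) := by
    show coeffEmb Qb jq = coeffEmb Qb (qExpand ℚ 1 jq)
    rw [qExpand_one_apply]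
  rw [h, evFun_jd]
  funext z
  have hz : dmul 1 z = z := by
    apply UpperHalfPlane.ext
    rw [coe_dmul, Nat.cast_one, one_mul]
  rw [hz]

/-- Injectivity of `evFun` on the coordinate ring. -/
theorem evFun_coord_eq_zero (N : ℕ) [NeZero N] (a : coordRing N)
    (h : evFun ((a : FN N) : LaurentSeries Qb) = 0) : a = 0 := by
  have h1 := coordRing_hasTExp_one N a
  rw [h] at h1
  have h2 : HasTExp 1 (0 : ℍ → ℂ) (HahnSeries.C (0 : ℂ)) := HasTExp.const 1 0
  have h3 : coeffMap φ ((a : FN N) : LaurentSeries Qb) = 0 := by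
    rw [h1.unique h2, map_zero]
  have h4 : ((a : FN N) : LaurentSeries Qb) = 0 :=
    coeffMap_φ_injective (by rw [h3, map_zero])
  exact Subtype.ext (Subtype.ext h4)

/-- **Induction principle** for properties of the functions `evFun a`, `a` in the coordinate
ring: it suffices to treat the generators `z ↦ j(d z)`, constants, sums and products. -/
theorem evFun_induction (N : ℕ) [NeZero N] (P : (ℍ → ℂ) → Prop)
    (hgen : ∀ (d : ℕ) [NeZero d], d ∣ N → P (fun z : ℍ => Jfun (dmul d z)))
    (hconst : ∀ c : Qb, P (fun _ => φ c))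
    (hadd : ∀ f g : ℍ → ℂ, P f → P g → P (f + g))
    (hmul : ∀ f g : ℍ → ℂ, P f → P g → P (f * g))
    (a : coordRing N) : P (evFun ((a : FN N) : LaurentSeries Qb)) := by
  obtain ⟨x, hx⟩ := a
  show P (evFun ((x : FN N) : LaurentSeries Qb))
  unfold coordRing at hx
  induction hx using Algebra.adjoin_induction with
  | mem x hx =>
    obtain ⟨d, hd0, hd, rfl⟩ := hx
    rw [evFun_jd]
    exact hgen d hd
  | algebraMap c =>
    have h := evFun_coord_algebraMap N c
    rw [Subalgebra.coe_algebraMap] at h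
    rw [h]
    exact hconst c
  | add x y hx hy ihx ihy =>
    have h : evFun ((x + y : FN N) : LaurentSeries Qb) =
        evFun (x : LaurentSeries Qb) + evFun (y : LaurentSeries Qb) :=
      evFun_coord_add N ⟨x, hx⟩ ⟨y, hy⟩
    rw [h]
    exact hadd _ _ ihx ihy
  | mul x y hx hy ihx ihy =>
    have h : evFun ((x * y : FN N) : LaurentSeries Qb) =
        evFun (x : LaurentSeries Qb) * evFun (y : LaurentSeries Qb) :=
      evFun_coord_mul N ⟨x, hx⟩ ⟨y, hy⟩
    rw [h]
    exact hmul _ _ ihx ihy

/-- `evFun a` is holomorphic for `a` in the coordinate ring. -/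
theorem evFun_coord_mdiff (N : ℕ) [NeZero N] (a : coordRing N) :
    MDifferentiable 𝓘(ℂ) 𝓘(ℂ) (evFun ((a : FN N) : LaurentSeries Qb)) :=
  evFun_induction N (MDifferentiable 𝓘(ℂ) 𝓘(ℂ)) (fun d _ _ => Jfun_dmul_mdiff d)
    (fun _ => mdifferentiable_const) (fun _ _ hf hg => hf.add hg) (fun _ _ hf hg => hf.mul hg) a

end Fermat.Agent.S24
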