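import Fermat.Agent.S24.Ana.Defs

/-!
# S24 / B1 / Base: the function field is the fraction field of the coordinate ring
(pure algebra)
-/

set_option autoImplicit false

noncomputable section

namespace Fermat.Agent.S24

open AlgebraicCurve ModularCurve IntermediateField

theorem jBar_eq_jd_one (N : ℕ) : jBar N = jd N 1 (one_dvd N) := by
  refine Subtype.ext ?_
  show coeffEmb Qb jq = coeffEmb Qb (qExpand ℚ 1 jq)
  rw [qExpand_one_apply]

theorem jBar_mem_coordRing_impl (N : ℕ) [NeZero N] : jBar N ∈ coordRing N := by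
  rw [jBar_eq_jd_one]
  exact Algebra.subset_adjoin ⟨1, inferInstance, one_dvd N, rfl⟩

/-- The image of the coordinate ring in `ℚ̄((q))`, as a subalgebra. -/
def coordRingL (N : ℕ) : Subalgebra Qb (LaurentSeries Qb) :=
  Algebra.adjoin Qb {x | ∃ (d : ℕ) (_ : NeZero d) (_ : d ∣ N), x = coeffEmb Qb (qExpand ℚ d jq)}

/-- `coeffEmb` maps rational constants to constants. -/
theorem Frac.coeffEmb_algebraMap (r : ℚ) :
    coeffEmb Qb (algebraMap ℚ (LaurentSeries ℚ) r) =
      algebraMap Qb (LaurentSeries Qb) (algebraMap ℚ Qb r) := by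
  rw [algebraMap_laurentSeries_eq_single, algebraMap_laurentSeries_eq_single, coeffEmb,
    coeffMap_single]

/-- `coeffEmb` maps the rational function field into the field generated over `ℚ̄` by the
`j(q^d)`. -/
theorem Frac.coeffEmb_mem_adjoin (N : ℕ) {x : LaurentSeries ℚ}
    (hx : x ∈ IntermediateField.adjoin ℚ (divisorExpansions N)) :
    coeffEmb Qb x ∈ IntermediateField.adjoin Qb
      {x | ∃ (d : ℕ) (_ : NeZero d) (_ : d ∣ N), x = coeffEmb Qb (qExpand ℚ d jq)} := by
  induction hx using IntermediateField.adjoin_induction with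
  | mem x hx =>
    obtain ⟨d, hd0, hd, rfl⟩ := hx
    exact IntermediateField.subset_adjoin Qb _ ⟨d, hd0, hd, rfl⟩
  | algebraMap r =>
    rw [Frac.coeffEmb_algebraMap]
    exact IntermediateField.algebraMap_mem _ _
  | add x y hx hy ihx ihy =>
    rw [map_add]
    exact add_mem ihx ihy
  | inv x hx ih =>
    rw [map_inv₀]
    exact inv_mem ih
  | mul x y hx hy ihx ihy =>
    rw [map_mul]
    exact mul_mem ihx ihy

/-- `FN N`, as a set of Laurent series, is the field generated over `ℚ̄` by the `j(q^d)`. -/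
theorem modularFunctionFieldBar_eq_adjoin (N : ℕ) [NeZero N] :
    ModularCurve.modularFunctionFieldBar N =
      IntermediateField.adjoin Qb
        {x | ∃ (d : ℕ) (_ : NeZero d) (_ : d ∣ N), x = coeffEmb Qb (qExpand ℚ d jq)} := by
  apply le_antisymm
  · show IntermediateField.adjoin Qb
        (⇑(coeffEmb Qb) '' (modularFunctionFieldFull N : Set (LaurentSeries ℚ))) ≤ _
    rw [IntermediateField.adjoin_le_iff]
    rintro _ ⟨x, hx, rfl⟩
    exact Frac.coeffEmb_mem_adjoin N hx
  · rw [IntermediateField.adjoin_le_iff]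
    rintro _ ⟨d, hd0, hd, rfl⟩
    exact jd_mem N d hd

/-- Every element of the field generated by the `j(q^d)` is a quotient of two elements of the
coordinate ring. -/
theorem Frac.exists_div_aux (N : ℕ) [NeZero N] {x : LaurentSeries Qb}
    (hx : x ∈ IntermediateField.adjoin Qb
      {x | ∃ (d : ℕ) (_ : NeZero d) (_ : d ∣ N), x = coeffEmb Qb (qExpand ℚ d jq)}) :
    ∃ a b : coordRing N, (b : FN N) ≠ 0 ∧
      x = ((a : FN N) : LaurentSeries Qb) / ((b : FN N) : LaurentSeries Qb) := by
  induction hx using IntermediateField.adjoin_induction with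
  | mem x hx =>
    obtain ⟨d, hd0, hd, rfl⟩ := hx
    refine ⟨⟨jd N d hd, Algebra.subset_adjoin ⟨d, hd0, hd, rfl⟩⟩, 1, one_ne_zero, ?_⟩
    show _ = coeffEmb Qb (qExpand ℚ d jq) / ((1 : FN N) : LaurentSeries Qb)
    rw [IntermediateField.coe_one, div_one]
  | algebraMap c =>
    refine ⟨algebraMap Qb (coordRing N) c, 1, one_ne_zero, ?_⟩
    show _ = algebraMap Qb (LaurentSeries Qb) c / ((1 : FN N) : LaurentSeries Qb)
    rw [IntermediateField.coe_one, div_one]
  | add x y hx hy ihx ihy =>
    obtain ⟨a, b, hb, rfl⟩ := ihx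
    obtain ⟨a', b', hb', rfl⟩ := ihy
    refine ⟨a * b' + b * a', b * b', mul_ne_zero hb hb', ?_⟩
    have hb1 : ((b : FN N) : LaurentSeries Qb) ≠ 0 := fun h => hb (Subtype.ext h)
    have hb1' : ((b' : FN N) : LaurentSeries Qb) ≠ 0 := fun h => hb' (Subtype.ext h)
    rw [div_add_div _ _ hb1 hb1']
    rfl
  | inv x hx ih =>
    obtain ⟨a, b, hb, rfl⟩ := ih
    by_cases ha : (a : FN N) = 0
    · refine ⟨0, 1, one_ne_zero, ?_⟩
      rw [ha]
      show (((0 : FN N) : LaurentSeries Qb) / _)⁻¹ = ((0 : FN N) : LaurentSeries Qb) / _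
      rw [IntermediateField.coe_zero, zero_div, zero_div, inv_zero]
    · exact ⟨b, a, ha, inv_div _ _⟩
  | mul x y hx hy ihx ihy =>
    obtain ⟨a, b, hb, rfl⟩ := ihx
    obtain ⟨a', b', hb', rfl⟩ := ihy
    refine ⟨a * a', b * b', mul_ne_zero hb hb', ?_⟩
    rw [div_mul_div_comm]
    rfl

/-- Every element of `FN N` is a quotient of two elements of the coordinate ring. -/
theorem exists_div_coordRing_impl (N : ℕ) [NeZero N] (f : FN N) :
    ∃ a b : coordRing N, (b : FN N) ≠ 0 ∧ f = (a : FN N) / (b : FN N) := by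
  have hf : (f : LaurentSeries Qb) ∈ IntermediateField.adjoin Qb
      {x | ∃ (d : ℕ) (_ : NeZero d) (_ : d ∣ N), x = coeffEmb Qb (qExpand ℚ d jq)} := by
    rw [← modularFunctionFieldBar_eq_adjoin]
    exact f.2
  obtain ⟨a, b, hb, h⟩ := Frac.exists_div_aux N hf
  exact ⟨a, b, hb, Subtype.ext h⟩

end Fermat.Agent.S24
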