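import Fermat.Agent.S24.Ana.Base.EvRing
import Fermat.Agent.S24.Ana.Base.Matrix

/-!
# S24 / B1 / Base: `Γ₀(N)`-invariance of `evFun a`; dependence of `conjFun` on the coset
-/

set_option autoImplicit false

noncomputable section

namespace Fermat.Agent.S24

open AlgebraicCurve ModularCurve IntermediateField UpperHalfPlane
open scoped MatrixGroups Manifold

/-- `evFun a` is `Γ₀(N)`-invariant for `a` in the coordinate ring. -/
theorem evFun_coord_Gamma0 (N : ℕ) [NeZero N] (a : coordRing N) (γ : SL(2, ℤ))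
    (hγ : γ ∈ CongruenceSubgroup.Gamma0 N) (z : ℍ) :
    evFun ((a : FN N) : LaurentSeries Qb) (γ • z) = evFun ((a : FN N) : LaurentSeries Qb) z := by
  have key : ∀ w : ℍ, evFun ((a : FN N) : LaurentSeries Qb) (γ • w) =
      evFun ((a : FN N) : LaurentSeries Qb) w := by
    refine evFun_induction N (fun f => ∀ w : ℍ, f (γ • w) = f w) ?_ ?_ ?_ ?_ a
    · intro d _ hd w
      obtain ⟨γ', hγ'⟩ := dmul_smul_Gamma0 N d hd γ hγ
      show Jfun (dmul d (γ • w)) = Jfun (dmul d w)
      rw [hγ' w, Jfun_smul]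
    · intro c w
      rfl
    · intro f g hf hg w
      show f (γ • w) + g (γ • w) = f w + g w
      rw [hf w, hg w]
    · intro f g hf hg w
      show f (γ • w) * g (γ • w) = f w * g w
      rw [hf w, hg w]
  exact key z

theorem conjFun_mul_right_impl (N : ℕ) [NeZero N] (g γ : SL(2, ℤ))
    (hγ : γ ∈ CongruenceSubgroup.Gamma0 N) (a : coordRing N) :
    conjFun N (g * γ) a = conjFun N g a := by
  funext z
  unfold conjFun
  rw [mul_inv_rev, mul_smul]
  exact evFun_coord_Gamma0 N a γ⁻¹ (inv_mem hγ) (g⁻¹ • z)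

theorem conjFun_mul_left_impl (N : ℕ) [NeZero N] (ε g : SL(2, ℤ)) (a : coordRing N) (z : ℍ) :
    conjFun N (ε * g) a z = conjFun N g a (ε⁻¹ • z) := by
  unfold conjFun
  rw [mul_inv_rev, mul_smul]

/-- Each conjugate is holomorphic on `ℍ`. -/
theorem conjFun_mdiff_impl (N : ℕ) [NeZero N] (g : SL(2, ℤ)) (a : coordRing N) :
    MDifferentiable 𝓘(ℂ) 𝓘(ℂ) (conjFun N g a) :=
  mdiff_comp_smul g⁻¹ (evFun_coord_mdiff N a)

/-- `conjFun N g` is injective. -/
theorem conjFun_eq_zero_impl (N : ℕ) [NeZero N] (g : SL(2, ℤ)) (a : coordRing N)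
    (h : conjFun N g a = 0) : a = 0 := by
  apply evFun_coord_eq_zero N a
  funext z
  have h1 : conjFun N g a (g • z) = evFun ((a : FN N) : LaurentSeries Qb) z := by
    unfold conjFun
    rw [inv_smul_smul]
  rw [← h1, h]
  rfl

end Fermat.Agent.S24
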