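import Fermat.Agent.S24.Ana.Base.EvRing
import Fermat.Agent.S24.Ana.Base.Matrix
import Fermat.Agent.S24.Ana.Base.Affine

/-!
# S24 / B1 / Base: every conjugate has a `t`-expansion with coefficients in `ℚ̄`
-/

set_option autoImplicit false

noncomputable section

namespace Fermat.Agent.S24

open AlgebraicCurve ModularCurve IntermediateField UpperHalfPlane
open scoped MatrixGroups

/-- Generators: `z ↦ j(d·g z)` has a `t`-expansion over `ℚ̄`. -/
theorem jd_conj_hasTExp (N d : ℕ) [NeZero N] [NeZero d] (hd : d ∣ N) (g : SL(2, ℤ)) :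
    ∃ G : LaurentSeries Qb, HasTExp N (fun z : ℍ => Jfun (dmul d (g • z))) (coeffMap φ G) := by
  obtain ⟨γ', a, b, δ, ha, hδ, hadδ, -, hz⟩ := dmul_smul_triangular d g
  choose w hw1 hw2 using hz
  have hδN : δ ∣ (N : ℤ) := by
    have h1 : δ ∣ (d : ℤ) := ⟨a, by rw [← hadδ]; ring⟩
    exact h1.trans (Int.natCast_dvd_natCast.mpr hd)
  obtain ⟨G, hG⟩ := Jfun_affine_hasTExp N a b δ ha hδ hδN w hw1
  refine ⟨G, ?_⟩
  have hfun : (fun z : ℍ => Jfun (dmul d (g • z))) = fun z => Jfun (w z) := by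
    funext z
    rw [hw2 z, Jfun_smul]
  rw [hfun]
  exact hG

/-- The image of a constant series under `coeffMap φ`. -/
theorem TExpGen.coeffMap_C (c : Qb) :
    coeffMap φ (HahnSeries.C c : LaurentSeries Qb) = (HahnSeries.C (φ c) : LaurentSeries ℂ) := by
  rw [HahnSeries.C_apply, HahnSeries.C_apply, coeffMap_single]

/-- For every `a` in the coordinate ring and every `g ∈ SL₂(ℤ)`, the function
`z ↦ evFun a (g z)` has a `t`-expansion over `ℚ̄`. -/
theorem TExpGen.evFun_smul_hasTExp (N : ℕ) [NeZero N] (a : coordRing N) :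
    ∀ g : SL(2, ℤ), ∃ G : LaurentSeries Qb,
      HasTExp N (fun z : ℍ => evFun ((a : FN N) : LaurentSeries Qb) (g • z)) (coeffMap φ G) := by
  refine evFun_induction N
    (fun f : ℍ → ℂ => ∀ g : SL(2, ℤ), ∃ G : LaurentSeries Qb,
      HasTExp N (fun z : ℍ => f (g • z)) (coeffMap φ G)) ?_ ?_ ?_ ?_ a
  · intro d _ hd g
    exact jd_conj_hasTExp N d hd g
  · intro c g
    refine ⟨HahnSeries.C c, ?_⟩
    rw [TExpGen.coeffMap_C]
    exact HasTExp.const N (φ c)
  · intro f f' hf hf' g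
    obtain ⟨G, hG⟩ := hf g
    obtain ⟨G', hG'⟩ := hf' g
    refine ⟨G + G', ?_⟩
    rw [map_add]
    exact hG.add hG'
  · intro f f' hf hf' g
    obtain ⟨G, hG⟩ := hf g
    obtain ⟨G', hG'⟩ := hf' g
    refine ⟨G * G', ?_⟩
    rw [map_mul]
    exact hG.mul hG'

theorem conjFun_hasTExp_impl (N : ℕ) [NeZero N] (g : SL(2, ℤ)) (a : coordRing N) :
    ∃ G : LaurentSeries Qb, HasTExp N (conjFun N g a) (coeffMap φ G) :=
  TExpGen.evFun_smul_hasTExp N a g⁻¹

end Fermat.Agent.S24
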